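/-
GATE-Z / GZ-LOCP-TB (helper60), file 4 = **LEAF (a) = (TB) CLOSED**:

* `natCard_M0mod_le_genusRR` : `#M⁰_m ≤ m ^ genusRR ℚ̄ (F_N)` at ANY level `N` with `p ∥ N`, `A | p`,
  `p ∤ m` (tame-chart side conditions for `p ∈ {2, 3}` only);
* `genusRR_toNat_eq_finrank` : the genus bridge `genusRR ℚ̄ (F_N) = dim S₂(Γ₀(N))` (S20 + helper60's
  `GL/Genus/GenusFN.genusRR_FN`);
* **`natCard_M0mod_le`** : `#M⁰_m ≤ m ^ dim S₂(Γ₀(N))` — the SAME `g` as
  `GH/TorsionCount.natCard_torsion_JZero` (`#J₀(N)[m] = m ^ (2 g)`);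
* **`tbHyp`** : helper12's leaf `Top.TBHyp p A h r` VERBATIM (`c₁ = 1`), for `p ∉ {2, 3}` prime,
  `A | p`, `p ∤ r`.
-/
import Fermat.Agent.GZ.LocP.TB.LevelCount
import Fermat.Agent.GZ.LocP.Top

set_option autoImplicit false
set_option linter.unusedSectionVars false
set_option linter.style.haveILetI false

noncomputable section

namespace Fermat.Agent.GZ.LocP.TB

open AlgebraicCurve IntermediateField Module IsLocalRing ModularCurve
open Fermat.Agent.S24 Fermat.Agent.S24_helper62 Fermat.Agent.RRh45 Fermat.Agent.RR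
open Fermat.Agent.GJ.J1 Fermat.Agent.GJ.J1.Val Fermat.Agent.GJ.J1.InstGen
open Fermat.Agent.GK.AL Fermat.Agent.GS.Nodal.Inst Fermat.Agent.GS.F

attribute [local instance] finiteResidues_FN hasPrincipalDivisors_FN nonempty_place_FN

/-- **(TB) at any level `N`, `p ∥ N`, `A | p`, `p ∤ m`**, exponent `genusRR`. -/
theorem natCard_M0mod_le_genusRR (N : ℕ) [NeZero N] (p : ℕ) [NeZero p]
    (A : ValuationSubring Kbar) (h : ExactDvd p N) (hA : A.LiesOverPrime p)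
    (h2 : p = 2 → 3 ∣ N) (h3 : p = 3 → 2 ∣ N) {m : ℕ} [NeZero m] (hpm : ¬ p ∣ m) :
    Finite ↥(M0mod N A h m) ∧
      Nat.card ↥(M0mod N A h m) ≤ m ^ (genusRR Kbar (FN N)).toNat := by
  obtain ⟨N', hN'⟩ : ∃ N', N = N' * p := by
    obtain ⟨m', hm'⟩ := h.dvd
    exact ⟨m', by rw [hm', mul_comm]⟩
  subst hN'
  haveI : NeZero N' := ⟨fun h0 => NeZero.ne (N' * p) (by rw [h0, zero_mul])⟩
  haveI : Fact p.Prime := ⟨h.prime⟩
  have hpN : ¬ p ∣ N' := by
    rintro ⟨m', hm'⟩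
    apply h.not_sq
    exact ⟨m', by rw [hm']; ring⟩
  have h2' : p = 2 → 3 ∣ N' := by
    intro hp
    have h3N := h2 hp
    rw [hp] at h3N
    exact (Nat.Coprime.dvd_mul_right (by norm_num : Nat.Coprime 3 2)).mp h3N
  have h3' : p = 3 → 2 ∣ N' := by
    intro hp
    have h2N := h3 hp
    rw [hp] at h2N
    exact (Nat.Coprime.dvd_mul_right (by norm_num : Nat.Coprime 2 3)).mp h2N
  have hmk : ((m : ℕ) : ResidueField A) ≠ 0 := by
    haveI : CharP (ResidueField A) p := Fermat.Agent.GJ.J1.Val.charP_residue A h.prime hA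
    rw [Ne, CharP.cast_eq_zero_iff (ResidueField A) p]
    exact hpm
  exact natCard_M0mod_le_mul N' p A h hA hpN h2' h3' hmk

/-- **the genus bridge**: Riemann's constant of `ℚ̄(X₀(N))` is `dim S₂(Γ₀(N))`. -/
theorem genusRR_toNat_eq_finrank (N : ℕ) [NeZero N] :
    (genusRR Kbar (FN N)).toNat =
      Module.finrank ℂ (CuspForm (CongruenceSubgroup.Gamma0 N) 2) := by
  have h1 : (genusRR Kbar (FN N) : ℚ) = genusFormula N := Fermat.Agent.GL.Genus.genusRR_FN N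
  have h2 := Fermat.Agent.S20.result N
  have h3 : (genusRR Kbar (FN N) : ℚ) =
      ((Module.finrank ℂ (CuspForm (CongruenceSubgroup.Gamma0 N) 2) : ℤ) : ℚ) := by
    rw [h1, ← h2]
    push_cast
    rfl
  have h4 : genusRR Kbar (FN N) =
      (Module.finrank ℂ (CuspForm (CongruenceSubgroup.Gamma0 N) 2) : ℤ) := by
    exact_mod_cast h3
  rw [h4, Int.toNat_natCast]

/-- **(TB)**: `#M⁰_m ≤ m ^ g`, `g = dim S₂(Γ₀(N))`, at any level `N` with `p ∥ N`, `A | p`,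
`p ∤ m`. -/
theorem natCard_M0mod_le (N : ℕ) [NeZero N] (p : ℕ) [NeZero p]
    (A : ValuationSubring Kbar) (h : ExactDvd p N) (hA : A.LiesOverPrime p)
    (h2 : p = 2 → 3 ∣ N) (h3 : p = 3 → 2 ∣ N) {m : ℕ} [NeZero m] (hpm : ¬ p ∣ m) :
    Finite ↥(M0mod N A h m) ∧
      Nat.card ↥(M0mod N A h m) ≤
        m ^ Module.finrank ℂ (CuspForm (CongruenceSubgroup.Gamma0 N) 2) := by
  have := natCard_M0mod_le_genusRR N p A h hA h2 h3 (m := m) hpm
  rwa [genusRR_toNat_eq_finrank N] at this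

/-- **helper12's leaf (a) `TBHyp`, VERBATIM** (`c₁ = 1`): level `p ∉ {2, 3}` prime, `A | p`,
`p ∤ r`. -/
theorem tbHyp (p : ℕ) [NeZero p] (A : ValuationSubring Kbar) (h : ExactDvd p p)
    (r : ℕ) [NeZero r] (hA : A.LiesOverPrime p) (hp2 : p ≠ 2) (hp3 : p ≠ 3) (hpr : ¬ p ∣ r) :
    Fermat.Agent.GZ.LocP.Top.TBHyp p A h r := by
  refine ⟨1, fun k => ?_⟩
  rw [one_mul]
  have hpm : ¬ p ∣ r ^ k := fun hd => hpr (h.prime.dvd_of_dvd_pow hd)
  exact (natCard_M0mod_le p p A h hA (fun e => absurd e hp2) (fun e => absurd e hp3) hpm).2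

end Fermat.Agent.GZ.LocP.TB
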