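/-
GATE-Z / GZ-LOCP-TB (helper60), file 1: **the abstract count behind (TB) `#M⁰_m ≤ m^(#Σ - 1)`**.

For a reduced-lattice package `D : LamData k R1 R2 ι Y m` (helper47, `GK/Glue/GlueCore.lean`) the
glueing constants `Ξ(y) := D.xi y D.n0 : ι → k` form a HOMOMORPHISM `Y → (kˣ)^ι` with
`Ξ(y) x ^ m = D.c y` for every node `x`.  Hence `y ↦ Ξ(y) / Ξ(y) x₀` takes values in the finite set
`{f : ι → k | f x₀ = 1 ∧ ∀ x, f x ^ m = 1}` of cardinality `≤ m ^ (#ι - 1)`, and any quotient of `Y`
on which "`Ξ(y / y')` constant" forces equality has at most `m ^ (#ι - 1)` elements.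

* `Xi`, `Xi_mul`, `Xi_one`, `Xi_pow`, `Xi_ne_zero`, `Xi_div`, `xi_eq_Xi` : the homomorphism;
* `card_le_of_Xi_const` : **the count**.  Mathlib + `GlueCore` only.
-/
import Fermat.Agent.GK.Glue.GlueCore

set_option autoImplicit false
set_option linter.unusedSectionVars false

namespace Fermat.Agent.GZ.LocP.TB

open Fermat.Agent.GK.Glue

variable {k : Type*} [Field k] {R1 R2 : Type*} [CommRing R1] [Algebra k R1]
  [CommRing R2] [Algebra k R2] {ι : Type*} [Fintype ι] {Y : Type*} [CommGroup Y] {m : ℕ}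
  (D : LamData k R1 R2 ι Y m) [Infinite k] [DecidableEq ι]

/-- the (level-independent) glueing constants of `y` -/
noncomputable def Xi (y : Y) : ι → k := D.xi y D.n0

theorem xi_eq_Xi (y : Y) (n : ℕ) (hn : D.n0 ≤ n) : D.xi y n = Xi D y := by
  have h1 := D.xi_add y n D.n0 hn le_rfl
  have h2 := D.xi_add y D.n0 n le_rfl hn
  rw [add_comm] at h1
  rw [← h1, h2]
  rfl

theorem xi_double_eq_Xi (y : Y) : D.xi y (D.n0 + D.n0) = Xi D y :=
  D.xi_add y D.n0 D.n0 le_rfl le_rfl

theorem Xi_mul (y y' : Y) : Xi D (y * y') = Xi D y * Xi D y' := by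
  have h := D.xi_mul y y' D.n0 D.n0 le_rfl le_rfl
  rw [xi_double_eq_Xi D (y * y')] at h
  exact h

theorem Xi_one : Xi D 1 = 1 := D.xi_one D.n0 le_rfl

theorem Xi_pow (y : Y) (x : ι) : Xi D y x ^ m = D.c y := D.xi_pow y D.n0 le_rfl x

theorem Xi_mul_inv (y : Y) (x : ι) : Xi D y x * Xi D y⁻¹ x = 1 := by
  have h := Xi_mul D y y⁻¹
  rw [mul_inv_cancel, Xi_one] at h
  have := congrFun h x
  rw [Pi.mul_apply, Pi.one_apply] at this
  exact this.symm

theorem Xi_ne_zero (y : Y) (x : ι) : Xi D y x ≠ 0 := by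
  intro h0
  have := Xi_mul_inv D y x
  rw [h0, zero_mul] at this
  exact zero_ne_one this

theorem Xi_div (y y' : Y) (x : ι) : Xi D (y / y') x = Xi D y x / Xi D y' x := by
  rw [eq_div_iff (Xi_ne_zero D y' x)]
  have h := Xi_mul D (y / y') y'
  rw [div_mul_cancel] at h
  have := congrFun h x
  rw [Pi.mul_apply] at this
  exact this.symm

/-- the finite set of normalised families of `m`-th roots of unity -/
noncomputable def rootFamilies (x₀ : ι) : Finset (ι → k) :=
  Fintype.piFinset fun x => if x = x₀ then {1} else Polynomial.nthRootsFinset m (1 : k)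

theorem card_rootFamilies_le (x₀ : ι) :
    (rootFamilies (k := k) (m := m) x₀).card ≤ m ^ (Fintype.card ι - 1) := by
  classical
  rw [rootFamilies, Fintype.card_piFinset]
  have h1 : ∀ x : ι, (if x = x₀ then ({1} : Finset k) else Polynomial.nthRootsFinset m (1 : k)).card
      ≤ if x = x₀ then 1 else m := by
    intro x
    split_ifs
    · rw [Finset.card_singleton]
    · rw [Polynomial.nthRootsFinset]
      exact le_trans (Multiset.toFinset_card_le _) (Polynomial.card_nthRoots m 1)
  refine le_trans (Finset.prod_le_prod' fun x _ => h1 x) ?_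
  rw [← Finset.mul_prod_erase Finset.univ _ (Finset.mem_univ x₀), if_pos rfl, one_mul]
  have h2 : ∀ x ∈ Finset.univ.erase x₀, (if x = x₀ then 1 else m) = m := by
    intro x hx
    rw [if_neg (Finset.ne_of_mem_erase hx)]
  rw [Finset.prod_congr rfl h2, Finset.prod_const, Finset.card_erase_of_mem (Finset.mem_univ x₀),
    Finset.card_univ]

/-- the normalised glueing constants lie in `rootFamilies` -/
theorem Xi_div_mem (x₀ : ι) (y : Y) :
    (fun x => Xi D y x / Xi D y x₀) ∈ rootFamilies (k := k) (m := m) x₀ := by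
  classical
  rw [rootFamilies, Fintype.mem_piFinset]
  intro x
  split_ifs with hx
  · rw [hx, Finset.mem_singleton, div_self (Xi_ne_zero D y x₀)]
  · rw [Polynomial.mem_nthRootsFinset D.hm, div_pow, Xi_pow, Xi_pow]
    refine div_self ?_
    intro h0
    have := Xi_pow D y x₀
    rw [h0] at this
    exact Xi_ne_zero D y x₀ (pow_eq_zero_iff (Nat.pos_iff_ne_zero.1 D.hm) |>.1 this)

/-- **The count.**  If `φ : Y → M` is onto and `φ y = φ y'` whenever the glueing constants of
`y / y'` are CONSTANT along the nodes, then `M` is finite with at most `m ^ (#ι - 1)` elements. -/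
theorem card_le_of_Xi_const [Nonempty ι] {M : Type*} (φ : Y → M) (hφ : Function.Surjective φ)
    (hker : ∀ y y' : Y, (∀ x x', Xi D (y / y') x = Xi D (y / y') x') → φ y = φ y') :
    Finite M ∧ Nat.card M ≤ m ^ (Fintype.card ι - 1) := by
  classical
  obtain ⟨x₀⟩ := ‹Nonempty ι›
  set s : M → Y := Function.surjInv hφ with hs
  let f : M → ↥(rootFamilies (k := k) (m := m) x₀) := fun a =>
    ⟨fun x => Xi D (s a) x / Xi D (s a) x₀, Xi_div_mem D x₀ (s a)⟩
  have hf : Function.Injective f := by
    intro a b hab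
    have h1 : ∀ x, Xi D (s a) x / Xi D (s a) x₀ = Xi D (s b) x / Xi D (s b) x₀ := by
      intro x
      have := congrArg Subtype.val hab
      exact congrFun this x
    have h2 : ∀ x, Xi D (s a / s b) x = Xi D (s a) x₀ / Xi D (s b) x₀ := by
      intro x
      rw [Xi_div]
      have ha0 := Xi_ne_zero D (s a) x₀
      have hb0 := Xi_ne_zero D (s b) x₀
      have hbx := Xi_ne_zero D (s b) x
      have := h1 x
      rw [div_eq_div_iff ha0 hb0] at this
      rw [div_eq_div_iff hbx hb0]
      linear_combination this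
    have h3 := hker (s a) (s b) fun x x' => by rw [h2 x, h2 x']
    rw [Function.surjInv_eq hφ, Function.surjInv_eq hφ] at h3
    exact h3
  have hfin : Finite M := Finite.of_injective f hf
  refine ⟨hfin, ?_⟩
  have h4 := Nat.card_le_card_of_injective f hf
  rw [Nat.card_eq_finsetCard] at h4
  exact le_trans h4 (card_rootFamilies_le x₀)

end Fermat.Agent.GZ.LocP.TB
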