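/-
GATE-Z / GZ-LOCP-TB (helper60), file 2: **(TB) at `F_N`, `q ∥ N`, `A | q`, from the special-fibre
facts**:

  `#M⁰_m ≤ m ^ (#Σ - 1)`      for every `m` prime to `q`,

`M⁰_m = GS.F.M0mod N A h m ⊆ J₀(N)(ℚ̄)[m]` the classes with an admissible Kummer generator
(helper30, `GS/F/Modular.lean`), `Σ = nodes J'` the supersingular nodes.

Proof: helper44's exported `ChartInput` (`GK/SS/ModularFibreG1.exists_chartInput_of_fibre`) gives
helper47's `LamData` on `Y = goodUnitsMod N A h m`; its glueing constants `Ξ : Y → (kˣ)^Σ` are a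
homomorphism into families of `m`-th roots of `c y` (`XiCount.lean`).  If `Ξ(z)` is CONSTANT `= a`
along the nodes, strong approximation (`ROfSurj2.pairSurj_of_incomparable`) gives `w ∈ Rw₁ ∩ Rw₂`
with reductions `(a⁻¹, 1)`; then `Ξ(z · w⁻ᵐ) = 1`, so `(1, 1) ∈ Λ_{z w⁻ᵐ}(n₀)` and Claim 2
(helper30, `Claim2Plug.hclaim2_units_of_core`) makes `z · w⁻ᵐ`, hence `z`, a constant times an
`m`-th power: its class in `J₀(N)` is `0`.  `XiCount.card_le_of_Xi_const` concludes.

Hypotheses = those of `exists_chartInput_of_fibre` verbatim (discharged at level `N' ℓ` in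
`LevelCount.lean`).
-/
import Fermat.Agent.GK.SS.ModularFibreG1
import Fermat.Agent.GK.AL.SecondValNe
import Fermat.Agent.GS.Nodal.ROfSurj2
import Fermat.Agent.GS.F.Modular
import Fermat.Agent.GZ.LocP.TB.XiCount

set_option autoImplicit false
set_option linter.unusedSectionVars false
set_option linter.style.haveILetI false

noncomputable section

namespace Fermat.Agent.GZ.LocP.TB

open AlgebraicCurve IntermediateField Module IsLocalRing ModularCurve
open Fermat.Agent.S24 Fermat.Agent.S24_helper62 Fermat.Agent.RRh45 Fermat.Agent.RR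
open Fermat.Agent.GJ.J1 Fermat.Agent.GJ.J1.Val Fermat.Agent.GJ.J1.InstGen
open Fermat.Agent.GJ.KumGroup Fermat.Agent.GJ.FF.PrincipalOf
open Fermat.Agent.GK.AL Fermat.Agent.GK.MultiVal Fermat.Agent.GK.Core
open Fermat.Agent.GK.CuspSep Fermat.Agent.GK.SymChart Fermat.Agent.GK.SymDegree
open Fermat.Agent.GK.BallTwo Fermat.Agent.GK.Val.TwoVal Fermat.Agent.GK.PsiFN
open Fermat.Agent.GK.FrobGlue Fermat.Agent.GK.NodalBridge Fermat.Agent.GK.NodalGraded
open Fermat.Agent.GK.NodalPole Fermat.Agent.GK.PencilInf Fermat.Agent.GK.PencilInstS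
open Fermat.Agent.GK.SS.TwoRed Fermat.Agent.GK.SS.FrobNodes Fermat.Agent.GK.SS.HTGlue
open Fermat.Agent.GK.SS.CompRiemann Fermat.Agent.GK.Core.Twist Fermat.Agent.GK.Core.TwistNodal
open Fermat.Agent.GK.SS.Modular Fermat.Agent.GK.SS Fermat.Agent.GK.Glue
open Fermat.Agent.GJ.Kum Fermat.Agent.GJ.Kum.KumType Fermat.Agent.GK.Tate
open Fermat.Agent.GK.UqKronecker Fermat.Agent.GK.SS.LGen
open Fermat.Agent.GH.KummerPic Fermat.Agent.GH.TorsionCount Fermat.Agent.GS.F

/-- `ℚ̄`. -/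
local notation "Qb" => AlgebraicClosure ℚ

/-! ### a unit with nonzero constant reduction is a `IsCstUnit` -/

section Generic

variable {N : ℕ} {A : ValuationSubring Qb} {Ft : Type*} [Field Ft] [Algebra (ResidueField A) Ft]

/-- converse of `GalVal.red_eq_cstRed`: a `W`-integral element whose reduction is a nonzero
constant is a unit with constant reduction. -/
theorem isCstUnit_of_red_eq (V : GalVal N A) (R : RedData Qb (FK N) (ResidueField A) Ft)
    (hW : R.Rw = V.W)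
    (hconst : ∀ (a : Qb) (ha : a ∈ A) (h : algebraMap Qb (FK N) a ∈ R.Rw),
      R.red ⟨algebraMap Qb (FK N) a, h⟩ = algebraMap (ResidueField A) Ft (residue A ⟨a, ha⟩))
    {w : FK N} (hw : w ∈ R.Rw) {d : ResidueField A} (hd : d ≠ 0)
    (hred : R.red ⟨w, hw⟩ = algebraMap (ResidueField A) Ft d) : V.IsCstUnit w := by
  obtain ⟨α, rfl⟩ := IsLocalRing.residue_surjective d
  have hαW : algebraMap Qb (FK N) (α : Qb) ∈ R.Rw := by rw [hW]; exact (V.mem_const _).2 α.2
  refine ⟨(α : Qb), ?_, ?_⟩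
  · refine le_antisymm ((A.valuation_le_one_iff _).2 α.2) (not_lt.1 fun hlt => hd ?_)
    rw [IsLocalRing.residue_eq_zero_iff]
    exact (A.valuation_lt_one_iff α).2 hlt
  · have hsub : w - algebraMap Qb (FK N) (α : Qb) ∈ R.Rw := sub_mem hw hαW
    have h0 : R.red ⟨w - algebraMap Qb (FK N) (α : Qb), hsub⟩ = 0 := by
      have e : (⟨w - algebraMap Qb (FK N) (α : Qb), hsub⟩ : R.Rw) =
          ⟨w, hw⟩ - ⟨algebraMap Qb (FK N) (α : Qb), hαW⟩ := rfl
      rw [e, map_sub, hred, hconst (α : Qb) α.2 hαW, sub_self]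
    rw [R.red_eq_zero_iff] at h0
    have h1 := (R.Rw.valuation_lt_one_iff _).1 h0
    rw [← hW]
    exact h1

end Generic

variable {q : ℕ} (N : ℕ) [NeZero N] [NeZero q] (A : ValuationSubring Kbar) (h : ExactDvd q N)

attribute [local instance] Fermat.Agent.RR.ModularBar.finiteResidues
  Fermat.Agent.RR.ModularBar.hasPrincipalDivisors Fermat.Agent.RR.ModularBar.nonempty_place

section Main

variable {C : Type} [CommRing C] [Algebra (ResidueField A) C] [Algebra C (FresBar N A)]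
  [IsScalarTower (ResidueField A) C (FresBar N A)]

set_option maxHeartbeats 1600000 in
/-- **(TB) at `F_N`, `q ∥ N`, from the special-fibre facts**: `#M⁰_m ≤ m ^ (#Σ - 1)`, `q ∤ m`. -/
theorem natCard_M0mod_le_fibre (hA : A.LiesOverPrime q) {m : ℕ} [NeZero m]
    (hmk : ((m : ℕ) : ResidueField A) ≠ 0)
    [IsDedekindDomain C] (hCf : ¬ IsField C)
    (hinj : Function.Injective (algebraMap C (FresBar N A)))
    (hCreg : ∀ c : C, RegFin (ResidueField A) (tauF N A) (algebraMap C (FresBar N A) c))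
    (hCrange : ∀ z : FresBar N A, RegFin (ResidueField A) (tauF N A) z →
      z ∈ Set.range (algebraMap C (FresBar N A)))
    (Ψ : C →ₐ[ResidueField A] C) (hΨpow : ∀ a, ∃ b, Ψ a = b ^ q)
    (hΨ : ∀ c, algebraMap C (FresBar N A) (Ψ c) = psiFN N A h hA (algebraMap C (FresBar N A) c))
    (J' : Ideal C) (hfix : fixIdeal Ψ ≤ J')
    (hB : ∀ (x : FN N) (h1 : x ∈ (redDataBar N A).Rw) (h2 : x ∈ (redData2 N A h).Rw),
      RegFin Kbar (jF N) x →
      ∃ g g' : C, algebraMap C (FresBar N A) g = (redDataBar N A).red ⟨x, h1⟩ ∧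
        algebraMap C (FresBar N A) g' = (redData2 N A h).red ⟨x, h2⟩ ∧ g - Ψ g' ∈ J')
    (hBsurj : ∀ g g' : C, g - Ψ g' ∈ J' →
      ∃ (x : FN N) (h1 : x ∈ (redDataBar N A).Rw) (h2 : x ∈ (redData2 N A h).Rw),
        RegFin Kbar (jF N) x ∧ (redDataBar N A).red ⟨x, h1⟩ = algebraMap C (FresBar N A) g ∧
          (redData2 N A h).red ⟨x, h2⟩ = algebraMap C (FresBar N A) g')
    (mα mβ : ℕ)
    (hα : ∀ m : ℕ, mα ≤ m → ∀ y ∈ Lfib (ResidueField A) (tauF N A) (m : ℤ), ∃ x,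
      ∃ hx : x ∈ (ballFN N A h).B,
      RegFin Kbar (jF N * jdF N q h.dvd)⁻¹ ((jF N)⁻¹ ^ m * x) ∧
        (ballFN N A h).red ⟨x, hx⟩ = (y, psiFN N A h hA y))
    (hβ : ∀ m : ℕ, mβ ≤ m → ∀ y ∈ Lfib (ResidueField A) (tauF N A) (m : ℤ), ∃ x,
      ∃ hx : x ∈ (ballFN N A h).B,
      RegFin Kbar (jF N * jdF N q h.dvd)⁻¹ ((jdF N q h.dvd)⁻¹ ^ m * x) ∧
        (ballFN N A h).red ⟨x, hx⟩ = (psiFN N A h hA y, y))
    [Fintype ↥(nodes J')] :
    Finite ↥(M0mod N A h m) ∧
      Nat.card ↥(M0mod N A h m) ≤ m ^ (Fintype.card ↥(nodes J') - 1) := by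
  classical
  obtain ⟨hk, I, hIe1, hIe2, hconn, Pc, hs, hunit, hTfin, hT, g', c0, hg', hdimT⟩ :=
    exists_chartInput_of_fibre N A h hA hmk hCf hinj hCreg hCrange Ψ hΨpow hΨ J' hfix hB hBsurj
      mα mβ hα hβ
  haveI hgenK : IsGen Kbar (jF N) := isGen_jF N
  have H : Hyp Kbar (FN N) := hyp_of_isGen (jF N)
  haveI : IsAlgClosed (ResidueField A) :=
    Fermat.Agent.GJ.ResidueAlgClosed.isAlgClosed_residueField A
  haveI : Infinite (ResidueField A) := IsAlgClosed.instInfinite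
  haveI : FiniteDimensional Kbar⟮tS N h.dvd⟯ (FN N) := (isGen_tS N h.dvd).finite
  have ht1 := isGaussChart1_tS N A h hA
  have ht2 := isGaussChart2_tS N A h hA
  have hc := redCompatFN N A h
  have hne := Rw1_ne_Rw2 N A h hA
  have hdeg := hdeg_tS_le N A h hA
  have hti1 := inv_tS_mem_Rw1 N A h hA
  have hti2 := inv_tS_mem_Rw2 N A h hA
  have htK := transcendental_tS N h.dvd
  have ho := hasOrthoBases_FN N A h hA
  have hrk := rankOne_bar N A h hA
  have hm0 : m ≠ 0 := I.m_ne_zero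
  have hinjC : Function.Injective
      (IsScalarTower.toAlgHom (ResidueField A) C (FresBar N A)) := hinj
  set T := I.twoRedInput H (jF N) htK hc hne hdeg hti1 hti2 with hTdef
  have hTL : ∀ (y : goodUnitsMod N A h m) (n : ℕ) (x : FK N),
      x ∈ T.L y n ↔ x ∈ Lz Kbar m ((y : (FK N)ˣ) : FK N) (tS N h.dvd) n := by
    intro y n x
    show x ∈ Lgen H (tS N h.dvd) m ((y : (FK N)ˣ) : FK N) n ↔ _
    rw [mem_Lgen_iff (H := H) (jF N) htK hm0 (ChartInput.y_ne_zero y) (I.U_dvd y), mem_Lz]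
  have hclaim2 := Fermat.Agent.GK.SS.Claim2Plug.hclaim2_units_of_core (jF N) hc ho hrk
    (mem_ball2.2 ⟨ht1.1, ht2.1⟩) htK Pc hs hunit hTfin hT g' c0 hg' hdimT hmk hinjC hinjC T
    (fun y n x hx => (hTL y n x).2 hx)
    (fun n x hx => by
      have hx' : x ∈ Lgen H (tS N h.dvd) m
          (((1 : goodUnitsMod N A h m) : (FK N)ˣ) : FK N) n := hx
      rw [OneMemClass.coe_one, Units.val_one, Lgen_one (H := H) (m := m) (jF N) htK n] at hx'
      exact hx')
    I.U_dvd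
  set D := T.lamData hc hinjC hinjC ho with hDdef
  -- strong approximation
  have hpair : Fermat.Agent.GS.Nodal.ROfSurj2.PairSurj (redDataBar N A) (redData2 N A h) := by
    apply Fermat.Agent.GS.Nodal.ROfSurj2.pairSurj_of_incomparable
    intro i j hij
    fin_cases i <;> fin_cases j
    · exact absurd rfl hij
    · exact not_Rw1_le_Rw2 N A h hA
    · exact not_Rw2_le_Rw1 N A h hA
    · exact absurd rfl hij
  haveI := hasPrincipalDivisors_FK N
  -- the class map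
  let φ : ↥(goodUnitsMod N A h m) → ↥(M0mod N A h m) := fun y =>
    ⟨kum0 (K := Qb) (F := FK N) m (Additive.ofMul ⟨(y : (FK N)ˣ), y.2.1⟩),
      mem_M0.2 ⟨⟨(y : (FK N)ˣ), y.2.1⟩, y.2, rfl⟩⟩
  have hφ : Function.Surjective φ := by
    rintro ⟨x, hx⟩
    obtain ⟨u, hu, rfl⟩ := mem_M0.1 hx
    exact ⟨⟨(u : (FK N)ˣ), hu⟩, rfl⟩
  -- the kernel criterion
  have hzero : ∀ z : ↥(goodUnitsMod N A h m), (∀ x x', Xi D z x = Xi D z x') →
      kum0 (K := Qb) (F := FK N) m (Additive.ofMul ⟨(z : (FK N)ˣ), z.2.1⟩) = 0 := by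
    intro z hz
    obtain ⟨x₀⟩ := hconn
    set a : ResidueField A := Xi D z x₀ with ha
    have ha0 : a ≠ 0 := Xi_ne_zero D z x₀
    have hza : ∀ x, Xi D z x = a := fun x => hz x x₀
    -- the approximating element
    obtain ⟨w, hw1, hw2, hr1, hr2⟩ := hpair
      (algebraMap (ResidueField A) (FresBar N A) a⁻¹, (1 : FresBar N A))
    have hr1' : (redDataBar N A).red ⟨w, hw1⟩ =
        algebraMap (ResidueField A) (FresBar N A) a⁻¹ := hr1
    have hr2' : (redData2 N A h).red ⟨w, hw2⟩ =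
        algebraMap (ResidueField A) (FresBar N A) 1 := by rw [map_one]; exact hr2
    have hc1 : (galVal1 N A).IsCstUnit w :=
      isCstUnit_of_red_eq (galVal1 N A) (redDataBar N A) rfl (red1_const N A) hw1
        (inv_ne_zero ha0) hr1'
    have hc2 : (galVal2 N A h).IsCstUnit w :=
      isCstUnit_of_red_eq (galVal2 N A h) (redData2 N A h) rfl (red2_const N A h) hw2
        one_ne_zero hr2'
    have hw0 : w ≠ 0 := hc1.ne_zero
    set wu : (FK N)ˣ := Units.mk0 w hw0 with hwu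
    -- `v = w⁻ᵐ` is an admissible unit
    have hvmem : (wu⁻¹) ^ m ∈ goodUnitsMod N A h m := by
      refine ⟨pow_mem_pDivUnits Qb (FK N) m (wu⁻¹), ?_, ?_⟩
      · rw [Units.val_pow_eq_pow_val, Units.val_inv_eq_inv_val]
        exact isCstUnit_pow hc1.inv m
      · rw [Units.val_pow_eq_pow_val, Units.val_inv_eq_inv_val]
        exact isCstUnit_pow hc2.inv m
    set v : ↥(goodUnitsMod N A h m) := ⟨(wu⁻¹) ^ m, hvmem⟩ with hv
    -- `red w = (a⁻¹, 1) ∈ Λ_v(n₀)`
    have hwL : w ∈ T.L v D.n0 := by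
      rw [hTL, mem_Lz]
      have e : w ^ m * (((v : (FK N)ˣ)) : FK N) = 1 := by
        show w ^ m * ((((wu⁻¹) ^ m : (FK N)ˣ)) : FK N) = 1
        rw [Units.val_pow_eq_pow_val, Units.val_inv_eq_inv_val, ← mul_pow]
        show (w * w⁻¹) ^ m = 1
        rw [mul_inv_cancel₀ hw0, one_pow]
      rw [e]
      exact one_mem_Lfib_nat _ _
    have hmemv : ((algebraMap (ResidueField A) C a⁻¹, (1 : C)) : C × C) ∈ D.Lam v D.n0 :=
      T.mk_mem_lamData_Lam hc hinjC hinjC ho hw1 hw2 hwL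
        (by rw [AlgHom.commutes]; exact hr1'.symm) (by rw [map_one]; exact hr2.symm)
    have hXiv : Xi D v = fun _ => a⁻¹ := by
      refine D.xi_unique v D.n0 le_rfl hmemv _ (fun x => ?_) fun x => ?_
      · show D.e1 x (algebraMap (ResidueField A) C a⁻¹) = a⁻¹ * D.e2 x 1
        rw [AlgHom.commutes, map_one, mul_one]
        rfl
      · show D.e2 x 1 ≠ 0
        rw [map_one]
        exact one_ne_zero
    -- `Ξ(z v) = 1`
    have hXizv : Xi D (z * v) = 1 := by
      rw [Xi_mul, hXiv]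
      funext x
      rw [Pi.mul_apply, hza x, Pi.one_apply, mul_inv_cancel₀ ha0]
    have h11 : ((1 : C), (1 : C)) ∈ D.Lam (z * v) D.n0 :=
      D.one_mem_Lam_of_xi (z * v) D.n0 le_rfl hXizv
    obtain ⟨c, hcc, w', hw'⟩ := hclaim2 (z * v) ⟨D.n0, le_rfl, h11⟩
    obtain ⟨d, hd⟩ := cstUnits_pow hm0 c hcc
    refine kum0_eq_zero_of_pow m _ (d * w' * wu) ?_
    show (z : (FK N)ˣ) = (d * w' * wu) ^ m
    have h1 : ((z * v : ↥(goodUnitsMod N A h m)) : (FK N)ˣ) = (z : (FK N)ˣ) * (wu⁻¹) ^ m := rfl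
    rw [h1] at hw'
    rw [mul_pow, mul_pow, ← hd, ← hw', mul_assoc, ← mul_pow, inv_mul_cancel, one_pow, mul_one]
  have hker : ∀ y y' : ↥(goodUnitsMod N A h m),
      (∀ x x', Xi D (y / y') x = Xi D (y / y') x') → φ y = φ y' := by
    intro y y' hyy
    have h0 := hzero (y / y') hyy
    apply Subtype.ext
    show kum0 (K := Qb) (F := FK N) m (Additive.ofMul ⟨(y : (FK N)ˣ), y.2.1⟩) =
      kum0 (K := Qb) (F := FK N) m (Additive.ofMul ⟨(y' : (FK N)ˣ), y'.2.1⟩)
    have e : (⟨(y : (FK N)ˣ), y.2.1⟩ : pDivUnits Qb (FK N) m) =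
        ⟨((y / y' : ↥(goodUnitsMod N A h m)) : (FK N)ˣ), (y / y').2.1⟩ *
          ⟨(y' : (FK N)ˣ), y'.2.1⟩ := by
      apply Subtype.ext
      show (y : (FK N)ˣ) = (y : (FK N)ˣ) / (y' : (FK N)ˣ) * (y' : (FK N)ˣ)
      rw [div_mul_cancel]
    rw [e, ofMul_mul, map_add, h0, zero_add]
  exact card_le_of_Xi_const D φ hφ hker

end Main

end Fermat.Agent.GZ.LocP.TB
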